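/-
helper68 (P-FF / FF-D, row 510): interfaces for the three independent leaves of the descent
`Fermat.Agent.H72.FF.DescentStatement`.

* `EqvSeparatesStatement` (FF-D-SEP): the `G_ℚ`-equivariant functions on a smooth `G_ℚ`-set
  separate points (infinite Galois theory).
* `SepDetStatement` (FF-D-SW): a subring of `Z → K` (`Z` finite, `K` a field) which separates
  points contains `#Z` functions with invertible value matrix (finite Stone-Weierstrass).
* `TraceTrickStatement` (FF-D-TR): every element of an unramified Hopf order is a combination,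
  with coefficients in `A`, of elements which are equivariant for the decomposition group
  (trace-dual bases for unramified extensions, `PlaceUnrBasis`).
-/
import Fermat.Agent.H72.FF.Interfaces

set_option autoImplicit false

noncomputable section

namespace Fermat.Agent.H68.FFD

open Fermat.Agent.H10.FF Fermat.Agent.H72.FF

/-- **FF-D-SEP.** Equivariant functions separate the points of a smooth `G_ℚ`-set. -/
def EqvSeparatesStatement : Prop :=
  ∀ (Z : Type) [Finite Z] [MulAction GQ Z], IsSmoothOn (Set.univ : Set Z) →
    ∀ z z' : Z, z ≠ z' →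
      ∃ f : Z → Qb, (∀ (σ : GQ) (w : Z), f (σ • w) = σ (f w)) ∧ f z ≠ f z'

/-- **FF-D-SW.** Finite Stone-Weierstrass with determinant: a subring of functions on a finite
set with values in a field which separates points contains a family with invertible value
matrix. -/
def SepDetStatement : Prop :=
  ∀ (K : Type) [Field K] (Z : Type) [Fintype Z] [DecidableEq Z] (B : Subring (Z → K)),
    (∀ z z' : Z, z ≠ z' → ∃ f ∈ B, f z ≠ f z') →
    ∃ e : Z → Z → K, (∀ k, e k ∈ B) ∧ (Matrix.of fun z k => e k z).det ≠ 0

/-- **FF-D-TR.** The trace trick: every element of an unramified Hopf order is an `A`-linear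
combination of elements of the order which are equivariant for the decomposition group. -/
def TraceTrickStatement : Prop :=
  ∀ (A : ValuationSubring Qb), PlaceUnrBasis A →
    ∀ (Z : Type) [AddCommGroup Z] [Finite Z] [DistribMulAction GQ Z],
      IsSmoothOn (Set.univ : Set Z) →
      ∀ Hu : Subring (Z → Qb), IsUnrHopfOrder A (fun (σ : GQ) (z : Z) => σ • z) Hu →
      ∀ x ∈ Hu, ∃ (m : ℕ) (c : Fin m → Qb) (y : Fin m → Z → Qb),
        (∀ j, c j ∈ A) ∧ (∀ j, y j ∈ Hu) ∧
        (∀ j, ∀ σ ∈ A.decompositionSubgroup ℚ, ∀ z : Z, y j (σ • z) = σ (y j z)) ∧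
        ∀ z : Z, x z = ∑ j, c j * y j z

end Fermat.Agent.H68.FFD

end
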