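/-
helper68 (P-FF / FF-D, row 510): elementary facts about a place `A` of `ℚ̄` over `ℓ`.
-/
import Fermat.Agent.H68.FFD.Interfaces

set_option autoImplicit false
set_option linter.unusedVariables false
set_option linter.unusedSectionVars false

noncomputable section

namespace Fermat.Agent.H68.FFD

open Fermat.Agent.H10.FF Fermat.Agent.H72.FF

theorem ffd_isGalois : IsGalois ℚ Qb := by
  have h : (DivisionRing.toRatAlgebra : Algebra ℚ (AlgebraicClosure ℚ)) =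
      AlgebraicClosure.instAlgebra ℚ := Subsingleton.elim _ _
  rw [h]
  infer_instance

/-- An element of `ℚ̄` fixed by the whole Galois group is rational. -/
theorem ffd_rat_of_fixed (x : Qb) (h : ∀ σ : GQ, σ x = x) :
    ∃ q : ℚ, algebraMap ℚ Qb q = x :=
  have := ffd_isGalois
  (InfiniteGalois.mem_range_algebraMap_iff_fixed x).mpr h

section Place

variable {ℓ : ℕ} [hℓ : Fact ℓ.Prime] {A : ValuationSubring Qb}

theorem ffd_val_ell_lt (hA : A.LiesOverPrime ℓ) : A.valuation (ℓ : Qb) < 1 :=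
  (A.mem_nonunits_iff).1 hA

theorem ffd_val_le (x : Qb) (hx : x ∈ A) : A.valuation x ≤ 1 :=
  (A.valuation_le_one_iff x).2 hx

theorem ffd_mem_of_val_le (x : Qb) (hx : A.valuation x ≤ 1) : x ∈ A :=
  (A.valuation_le_one_iff x).1 hx

theorem ffd_ell_ne_zero : (ℓ : Qb) ≠ 0 :=
  Nat.cast_ne_zero.2 hℓ.out.ne_zero

theorem ffd_ell_mem : (ℓ : Qb) ∈ A := natCast_mem A ℓ

theorem ffd_ell_pow_mem (M : ℕ) : (ℓ : Qb) ^ M ∈ A := pow_mem ffd_ell_mem M

/-- Integers prime to `ℓ` have valuation `1`. -/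
theorem ffd_val_int_of_coprime (hA : A.LiesOverPrime ℓ) (m : ℤ) (hm : IsCoprime m (ℓ : ℤ)) :
    A.valuation (m : Qb) = 1 := by
  obtain ⟨a, b, hab⟩ := hm
  have h1 : A.valuation (m : Qb) ≤ 1 := ffd_val_le _ (intCast_mem A m)
  rcases lt_or_eq_of_le h1 with hlt | heq
  · exfalso
    have h2 : ((a : Qb) * (m : Qb) + (b : Qb) * (ℓ : Qb)) = 1 := by
      have := congrArg (fun t : ℤ => (t : Qb)) hab
      simpa using this
    have h3 : A.valuation ((a : Qb) * (m : Qb) + (b : Qb) * (ℓ : Qb)) < 1 := by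
      refine lt_of_le_of_lt (Valuation.map_add _ _ _) (max_lt ?_ ?_)
      · rw [map_mul]
        calc A.valuation (a : Qb) * A.valuation (m : Qb)
            ≤ 1 * A.valuation (m : Qb) :=
              mul_le_mul_left (ffd_val_le _ (intCast_mem A a)) _
          _ < 1 := by rw [one_mul]; exact hlt
      · rw [map_mul]
        calc A.valuation (b : Qb) * A.valuation (ℓ : Qb)
            ≤ 1 * A.valuation (ℓ : Qb) :=
              mul_le_mul_left (ffd_val_le _ (intCast_mem A b)) _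
          _ < 1 := by rw [one_mul]; exact ffd_val_ell_lt hA
    rw [h2, map_one] at h3
    exact lt_irrefl _ h3
  · exact heq

theorem ffd_int_coprime_of_not_dvd (m : ℤ) (hm : ¬ (ℓ : ℤ) ∣ m) : IsCoprime m (ℓ : ℤ) := by
  have hp : Prime (ℓ : ℤ) := Nat.prime_iff_prime_int.1 hℓ.out
  exact ((Prime.coprime_iff_not_dvd hp).2 hm).symm

/-- Inverses of integers prime to `ℓ` lie in `A`. -/
theorem ffd_inv_int_mem (hA : A.LiesOverPrime ℓ) (m : ℤ) (hm : ¬ (ℓ : ℤ) ∣ m) :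
    ((m : Qb))⁻¹ ∈ A := by
  apply ffd_mem_of_val_le
  rw [map_inv₀, ffd_val_int_of_coprime hA m (ffd_int_coprime_of_not_dvd m hm), inv_one]

theorem ffd_rat_cast_eq (q : ℚ) :
    algebraMap ℚ Qb q = (q.num : Qb) * ((q.den : ℤ) : Qb)⁻¹ := by
  conv_lhs => rw [← Rat.num_div_den q]
  rw [map_div₀]
  simp [div_eq_mul_inv]

theorem ffd_den_not_dvd (q : ℚ) (hq : q ∈ GaloisRep.ratLocalizedAt ℓ) :
    ¬ (ℓ : ℤ) ∣ (q.den : ℤ) := by
  intro h
  have h1 : ℓ ∣ q.den := by exact_mod_cast h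
  have h2 : q.den.Coprime ℓ := hq
  have h3 : ℓ ∣ 1 := by
    have := Nat.dvd_gcd h1 (dvd_refl ℓ)
    rwa [h2] at this
  exact hℓ.out.one_lt.ne' (Nat.dvd_one.1 h3)

/-- `ℤ_(ℓ) ⊆ A`. -/
theorem ffd_zl_mem (hA : A.LiesOverPrime ℓ) (q : ℚ) (hq : q ∈ GaloisRep.ratLocalizedAt ℓ) :
    algebraMap ℚ Qb q ∈ A := by
  rw [ffd_rat_cast_eq]
  exact A.mul_mem _ _ (intCast_mem A _) (ffd_inv_int_mem hA _ (ffd_den_not_dvd q hq))

/-- A rational number outside `ℤ_(ℓ)` has inverse in `ℓ A`. -/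
theorem ffd_rat_inv (hA : A.LiesOverPrime ℓ) (q : ℚ) (hq : q ∉ GaloisRep.ratLocalizedAt ℓ) :
    ∃ a ∈ A, (algebraMap ℚ Qb q)⁻¹ = (ℓ : Qb) * a := by
  have hden : ℓ ∣ q.den := by
    by_contra h
    exact hq ((Nat.Coprime.symm ((Nat.Prime.coprime_iff_not_dvd hℓ.out).2 h)))
  obtain ⟨d, hd⟩ := hden
  have hnum : ¬ (ℓ : ℤ) ∣ q.num := by
    intro h
    have h1 : ℓ ∣ q.num.natAbs := Int.natCast_dvd.1 h
    have h2 : ℓ ∣ Nat.gcd q.num.natAbs q.den := Nat.dvd_gcd h1 ⟨d, hd⟩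
    rw [q.reduced] at h2
    exact hℓ.out.one_lt.ne' (Nat.dvd_one.1 h2)
  refine ⟨(d : Qb) * ((q.num : Qb))⁻¹, A.mul_mem _ _ (natCast_mem A d)
    (ffd_inv_int_mem hA _ hnum), ?_⟩
  rw [ffd_rat_cast_eq, mul_inv, inv_inv]
  have : ((q.den : ℤ) : Qb) = (ℓ : Qb) * (d : Qb) := by
    rw [hd]
    push_cast
    ring
  rw [this]
  ring

/-- `A ∩ ℚ = ℤ_(ℓ)`. -/
theorem ffd_rat_mem_iff (hA : A.LiesOverPrime ℓ) (q : ℚ) :
    algebraMap ℚ Qb q ∈ A ↔ q ∈ GaloisRep.ratLocalizedAt ℓ := by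
  constructor
  · intro hq
    by_contra hcon
    obtain ⟨a, ha, hqa⟩ := ffd_rat_inv hA q hcon
    have hq0 : algebraMap ℚ Qb q ≠ 0 := by
      intro h0
      apply hcon
      have : q = 0 := (map_eq_zero (algebraMap ℚ Qb)).1 h0
      rw [this]
      exact Subring.zero_mem _
    have h1 : (1 : Qb) = (ℓ : Qb) * (a * algebraMap ℚ Qb q) := by
      rw [← mul_assoc, ← hqa, inv_mul_cancel₀ hq0]
    have h2 : A.valuation (1 : Qb) < 1 := by
      rw [h1, map_mul]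
      calc A.valuation (ℓ : Qb) * A.valuation (a * algebraMap ℚ Qb q)
          ≤ A.valuation (ℓ : Qb) * 1 :=
            mul_le_mul_right (ffd_val_le _ (A.mul_mem _ _ ha hq)) _
        _ < 1 := by rw [mul_one]; exact ffd_val_ell_lt hA
    rw [map_one] at h2
    exact lt_irrefl _ h2
  · exact ffd_zl_mem hA q

/-- Elements integral over `ℤ` lie in `A`. -/
theorem ffd_mem_of_isIntegral (x : Qb) (hx : IsIntegral ℤ x) : x ∈ A := by
  have h1 : IsIntegral A x := hx.tower_top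
  obtain ⟨y, hy⟩ := IsIntegrallyClosed.isIntegral_iff.1 h1
  rw [← hy]
  exact y.2

/-- Clearing denominators: `ℓ ^ M * y ∈ A` for some `M`. -/
theorem ffd_clear_denoms (hA : A.LiesOverPrime ℓ) (y : Qb) : ∃ M : ℕ, (ℓ : Qb) ^ M * y ∈ A := by
  have halg : IsAlgebraic ℤ y := by
    have h1 : IsAlgebraic ℚ y := by
      have := ffd_isGalois
      exact Algebra.IsAlgebraic.isAlgebraic y
    exact (IsFractionRing.isAlgebraic_iff ℤ ℚ Qb).2 h1
  obtain ⟨m, hm0, hm⟩ := halg.exists_integral_multiple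
  have hmy : (m : Qb) * y ∈ A := by
    have := ffd_mem_of_isIntegral (A := A) _ hm
    rwa [zsmul_eq_mul] at this
  obtain ⟨e, n', hn', hmn⟩ := Nat.exists_eq_pow_mul_and_not_dvd
    (Int.natAbs_ne_zero.2 hm0) ℓ hℓ.out.ne_one
  refine ⟨e, ?_⟩
  have hn'' : ¬ (ℓ : ℤ) ∣ (n' : ℤ) := by exact_mod_cast hn'
  have hinv := ffd_inv_int_mem hA (n' : ℤ) hn''
  have hn0 : ((n' : ℤ) : Qb) ≠ 0 := by
    intro h
    apply hn'
    have : n' = 0 := by exact_mod_cast h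
    rw [this]
    exact dvd_zero _
  have habs : ((m.natAbs : ℕ) : Qb) * y ∈ A := by
    rcases Int.natAbs_eq m with h | h
    · have : ((m.natAbs : ℕ) : Qb) = (m : Qb) := by
        conv_rhs => rw [h]
        simp
      rw [this]
      exact hmy
    · have : ((m.natAbs : ℕ) : Qb) = -(m : Qb) := by
        conv_rhs => rw [h]
        simp
      rw [this, neg_mul]
      exact A.neg_mem _ hmy
  have key : (ℓ : Qb) ^ e * y = (((m.natAbs : ℕ) : Qb) * y) * (((n' : ℤ) : Qb))⁻¹ := by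
    rw [hmn]
    push_cast
    have hn0' : (n' : Qb) ≠ 0 := by exact_mod_cast hn0
    rw [mul_assoc, mul_assoc, mul_comm (n' : Qb) (y * _), mul_assoc,
      inv_mul_cancel₀ hn0', mul_one]
  rw [key]
  exact A.mul_mem _ _ habs hinv

/-- A nonzero element of `ℚ̄` is not divisible in `A` by all powers of `ℓ`. -/
theorem ffd_exists_not_dvd (hA : A.LiesOverPrime ℓ) (y : Qb) (hy : y ≠ 0) :
    ∃ N : ℕ, ¬ ∃ a ∈ A, y = (ℓ : Qb) ^ N * a := by
  obtain ⟨M, hM⟩ := ffd_clear_denoms hA y⁻¹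
  refine ⟨M + 1, ?_⟩
  rintro ⟨a, ha, hya⟩
  have h1 : (1 : Qb) = (ℓ : Qb) * ((ℓ : Qb) ^ M * y⁻¹ * a) := by
    have hℓ0 : (ℓ : Qb) ≠ 0 := ffd_ell_ne_zero
    have : y⁻¹ * y = 1 := inv_mul_cancel₀ hy
    calc (1 : Qb) = (ℓ : Qb) ^ M * (y⁻¹ * y) * ((ℓ : Qb) ^ M)⁻¹ := by
          rw [this, mul_one, mul_inv_cancel₀ (pow_ne_zero _ hℓ0)]
      _ = (ℓ : Qb) ^ M * (y⁻¹ * ((ℓ : Qb) ^ (M + 1) * a)) * ((ℓ : Qb) ^ M)⁻¹ := by rw [← hya]
      _ = (ℓ : Qb) * ((ℓ : Qb) ^ M * y⁻¹ * a) := by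
          rw [pow_succ]
          field_simp
  have h2 : A.valuation (1 : Qb) < 1 := by
    rw [h1, map_mul]
    calc A.valuation (ℓ : Qb) * A.valuation ((ℓ : Qb) ^ M * y⁻¹ * a)
        ≤ A.valuation (ℓ : Qb) * 1 :=
          mul_le_mul_right (ffd_val_le _ (A.mul_mem _ _ hM ha)) _
      _ < 1 := by rw [mul_one]; exact ffd_val_ell_lt hA
  rw [map_one] at h2
  exact lt_irrefl _ h2

end Place

end Fermat.Agent.H68.FFD

end
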