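/-
helper68 (P-FF / FF-D, row 510): decomposition / inertia bookkeeping and the coefficient
calculus for families of functions with invertible value matrix.
-/
import Fermat.Agent.H68.FFD.PlaceBasics

set_option autoImplicit false
set_option linter.unusedVariables false
set_option linter.unusedSectionVars false

noncomputable section

namespace Fermat.Agent.H68.FFD

open Fermat.Agent.H10.FF Fermat.Agent.H72.FF
open scoped Pointwise

section DecInertia

variable {A : ValuationSubring Qb}

/-- The decomposition group preserves `A`. -/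
theorem ffd_dec_mem {σ : GQ} (hσ : σ ∈ A.decompositionSubgroup ℚ) {x : Qb} (hx : x ∈ A) :
    σ x ∈ A := by
  have h1 : σ • A = A := MulAction.mem_stabilizer_iff.1 hσ
  have h2 := ValuationSubring.smul_mem_pointwise_smul σ x A hx
  rw [h1] at h2
  exact h2

theorem ffd_inertia_le : A.inertiaSubgroupIn ℚ ≤ A.decompositionSubgroup ℚ := by
  intro σ hσ
  obtain ⟨σ', -, rfl⟩ := Subgroup.mem_map.1 hσ
  exact σ'.2

/-- The inertia group is normal in the decomposition group. -/
theorem ffd_inertia_conj {σ ι : GQ} (hσ : σ ∈ A.decompositionSubgroup ℚ)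
    (hι : ι ∈ A.inertiaSubgroupIn ℚ) : σ⁻¹ * ι * σ ∈ A.inertiaSubgroupIn ℚ := by
  obtain ⟨ι', hι', rfl⟩ := Subgroup.mem_map.1 hι
  have hn : (A.inertiaSubgroup ℚ).Normal := by
    unfold ValuationSubring.inertiaSubgroup
    infer_instance
  have h1 := hn.conj_mem ι' hι' (⟨σ, hσ⟩ : A.decompositionSubgroup ℚ)⁻¹
  refine Subgroup.mem_map.2 ⟨_, h1, ?_⟩
  simp

/-- Conjugates under the decomposition group of unramified integers are unramified integers. -/
theorem ffd_dec_unrInt {σ : GQ} (hσ : σ ∈ A.decompositionSubgroup ℚ) {x : Qb}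
    (hx : x ∈ unrInt A) : σ x ∈ unrInt A := by
  refine ⟨ffd_dec_mem hσ hx.1, fun ι hι => ?_⟩
  have h1 := hx.2 _ (ffd_inertia_conj hσ hι)
  have h2 : (σ⁻¹ * ι * σ) x = σ⁻¹ (ι (σ x)) := rfl
  rw [h2] at h1
  have h3 := congrArg σ h1
  have h4 : σ (σ⁻¹ (ι (σ x))) = ι (σ x) := by
    change (σ * σ⁻¹) (ι (σ x)) = _
    rw [mul_inv_cancel]
    rfl
  rw [h4] at h3
  exact h3

end DecInertia

section Coef

variable {Z : Type} [Fintype Z] [DecidableEq Z]

/-- The value matrix of a family of functions. -/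
def valMat (e : Z → Z → Qb) : Matrix Z Z Qb := Matrix.of fun z k => e k z

theorem valMat_apply (e : Z → Z → Qb) (z k : Z) : valMat e z k = e k z := rfl

theorem valMat_mulVec (e : Z → Z → Qb) (q : Z → Qb) (z : Z) :
    (valMat e).mulVec q z = ∑ k, e k z * q k := by
  simp [Matrix.mulVec, dotProduct, valMat_apply]

/-- The coefficients of a function with respect to a family. -/
def coefs (e : Z → Z → Qb) (h : Z → Qb) : Z → Qb := ((valMat e)⁻¹).mulVec h

theorem coefs_spec {e : Z → Z → Qb} (he : (valMat e).det ≠ 0) (h : Z → Qb) (z : Z) :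
    h z = ∑ k, e k z * coefs e h k := by
  rw [← valMat_mulVec, coefs, Matrix.mulVec_mulVec,
    Matrix.mul_nonsing_inv _ (isUnit_iff_ne_zero.2 he), Matrix.one_mulVec]

theorem coefs_unique {e : Z → Z → Qb} (he : (valMat e).det ≠ 0) (h : Z → Qb) (q : Z → Qb)
    (hq : ∀ z, h z = ∑ k, e k z * q k) : coefs e h = q := by
  have h1 : h = (valMat e).mulVec q := by
    funext z
    rw [valMat_mulVec, hq]
  rw [coefs, h1, Matrix.mulVec_mulVec, Matrix.nonsing_inv_mul _ (isUnit_iff_ne_zero.2 he),
    Matrix.one_mulVec]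

theorem coefs_add (e : Z → Z → Qb) (h h' : Z → Qb) :
    coefs e (h + h') = coefs e h + coefs e h' := Matrix.mulVec_add _ _ _

theorem coefs_smul (e : Z → Z → Qb) (c : Qb) (h : Z → Qb) :
    coefs e (c • h) = c • coefs e h := Matrix.mulVec_smul _ _ _

theorem coefs_sum {ι : Type} (e : Z → Z → Qb) (s : Finset ι) (h : ι → Z → Qb) :
    coefs e (∑ i ∈ s, h i) = ∑ i ∈ s, coefs e (h i) := Matrix.mulVec_sum _ _ _

/-- Nondegeneracy, twisted by a field automorphism. -/
theorem ffd_eq_zero_of_sum {e : Z → Z → Qb} (he : (valMat e).det ≠ 0) (σ : GQ) (d : Z → Qb)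
    (h : ∀ z, ∑ k, σ (e k z) * d k = 0) : d = 0 := by
  have h1 : (valMat e).mulVec (fun k => σ⁻¹ (d k)) = 0 := by
    funext z
    rw [valMat_mulVec]
    have h2 := congrArg (σ⁻¹ : GQ) (h z)
    rw [map_sum, map_zero] at h2
    rw [Pi.zero_apply, ← h2]
    refine Finset.sum_congr rfl fun k _ => ?_
    rw [map_mul]
    congr 1
    change e k z = (σ⁻¹ * σ) (e k z)
    rw [inv_mul_cancel]
    rfl
  have h3 := Matrix.eq_zero_of_mulVec_eq_zero he h1
  funext k
  have h4 := congrFun h3 k
  simp only [Pi.zero_apply] at h4 ⊢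
  exact (map_eq_zero (σ⁻¹ : GQ)).1 h4

variable [MulAction GQ Z]

/-- Coefficients of an equivariant function with respect to an equivariant family are fixed. -/
theorem coefs_fixed {e : Z → Z → Qb} (he : (valMat e).det ≠ 0) (σ : GQ)
    (heq : ∀ k z, e k (σ • z) = σ (e k z)) (h : Z → Qb) (q : Z → Qb)
    (hq : ∀ z, h z = ∑ k, e k z * q k) (hh : ∀ z, h (σ • z) = σ (h z)) (k : Z) :
    σ (q k) = q k := by
  have h1 : ∀ z, ∑ k, σ (e k z) * (q k - σ (q k)) = 0 := by
    intro z
    have h2 : h (σ • z) = ∑ k, σ (e k z) * q k := by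
      rw [hq]
      exact Finset.sum_congr rfl fun k _ => by rw [heq]
    have h3 : σ (h z) = ∑ k, σ (e k z) * σ (q k) := by
      rw [hq, map_sum]
      exact Finset.sum_congr rfl fun k _ => by rw [map_mul]
    have h4 : ∑ k, σ (e k z) * (q k - σ (q k)) =
        ∑ k, σ (e k z) * q k - ∑ k, σ (e k z) * σ (q k) := by
      rw [← Finset.sum_sub_distrib]
      exact Finset.sum_congr rfl fun k _ => by ring
    rw [h4, ← h2, ← h3, hh, sub_self]
  have h5 := congrFun (ffd_eq_zero_of_sum he σ _ h1) k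
  simp only [Pi.zero_apply] at h5
  exact (sub_eq_zero.1 h5).symm

end Coef

end Fermat.Agent.H68.FFD

end
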