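/-
helper68 (P-FF / FF-D, row 510): the optimal basis of `H₀` and the key lemma
(coefficients of the unramified order with respect to the optimal basis lie in `A`).
-/
import Fermat.Agent.H68.FFD.Coef

set_option autoImplicit false
set_option linter.unusedVariables false
set_option linter.unusedSectionVars false

noncomputable section

namespace Fermat.Agent.H68.FFD

open Fermat.Agent.H10.FF Fermat.Agent.H72.FF
open scoped Pointwise

/-- The determinant of a matrix with entries in a subring lies in the subring. -/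
theorem ffd_det_mem {K : Type} [Field K] {n : Type} [Fintype n] [DecidableEq n]
    (S : Subring K) (M : Matrix n n K) (h : ∀ i j, M i j ∈ S) : M.det ∈ S := by
  rw [Matrix.det_apply]
  refine Subring.sum_mem _ fun σ _ => ?_
  have h1 : ∏ i, M (σ i) i ∈ S := Subring.prod_mem _ fun i _ => h _ _
  rcases Int.units_eq_one_or (Equiv.Perm.sign σ) with h2 | h2
  · rw [h2, one_smul]
    exact h1
  · rw [h2, Units.neg_smul, one_smul]
    exact S.neg_mem h1

/-- The subring of `G_ℚ`-equivariant functions. -/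
def eqvSubring (Z : Type) [MulAction GQ Z] : Subring (Z → Qb) where
  carrier := {f | ∀ (σ : GQ) (z : Z), f (σ • z) = σ (f z)}
  mul_mem' := by
    intro a b ha hb σ z
    simp only [Pi.mul_apply, map_mul]
    rw [ha, hb]
  one_mem' := by
    intro σ z
    simp
  add_mem' := by
    intro a b ha hb σ z
    simp only [Pi.add_apply, map_add]
    rw [ha, hb]
  zero_mem' := by
    intro σ z
    simp
  neg_mem' := by
    intro a ha σ z
    simp only [Pi.neg_apply, map_neg]
    rw [ha]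

theorem mem_eqvSubring {Z : Type} [MulAction GQ Z] {f : Z → Qb} :
    f ∈ eqvSubring Z ↔ ∀ (σ : GQ) (z : Z), f (σ • z) = σ (f z) := Iff.rfl

section Main

variable {ℓ : ℕ} [hℓ : Fact ℓ.Prime] {A : ValuationSubring Qb}
  {Z : Type} [AddCommGroup Z] [Fintype Z] [DecidableEq Z] [DistribMulAction GQ Z]
  {Hu : Subring (Z → Qb)}

/-- Membership in `H₀`. -/
def InH0 (Hu : Subring (Z → Qb)) (h : Z → Qb) : Prop :=
  h ∈ Hu ∧ ∀ (σ : GQ) (z : Z), h (σ • z) = σ (h z)

theorem ffd_natCast_unrInt (n : ℕ) : (n : Qb) ∈ unrInt A :=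
  ⟨natCast_mem A n, fun σ _ => map_natCast σ n⟩

theorem ffd_rat_unrInt (hA : A.LiesOverPrime ℓ) (q : ℚ) (hq : q ∈ GaloisRep.ratLocalizedAt ℓ) :
    algebraMap ℚ Qb q ∈ unrInt A :=
  ⟨ffd_zl_mem hA q hq, fun σ _ => σ.commutes q⟩

/-- `R`-linear combinations of elements of `Hu` lie in `Hu`. -/
theorem ffd_comb_mem (hHu : IsUnrHopfOrder A (fun (σ : GQ) (z : Z) => σ • z) Hu)
    {ι : Type} (s : Finset ι) (u : ι → Z → Qb) (hu : ∀ k ∈ s, u k ∈ Hu) (c : ι → Qb)
    (hc : ∀ k ∈ s, c k ∈ unrInt A) : (fun z => ∑ k ∈ s, u k z * c k) ∈ Hu := by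
  have h1 : (fun z => ∑ k ∈ s, u k z * c k) = ∑ k ∈ s, u k * (fun _ : Z => c k) := by
    funext z
    rw [Finset.sum_apply]
    rfl
  rw [h1]
  exact Subring.sum_mem _ fun k hk => Hu.mul_mem (hu k hk) (hHu.const_mem _ (hc k hk))

theorem ffd_smul_mem (hHu : IsUnrHopfOrder A (fun (σ : GQ) (z : Z) => σ • z) Hu)
    {c : Qb} (hc : c ∈ unrInt A) {h : Z → Qb} (hh : h ∈ Hu) : (fun z => c * h z) ∈ Hu := by
  have : (fun z => c * h z) = (fun _ : Z => c) * h := rfl
  rw [this]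
  exact Hu.mul_mem (hHu.const_mem _ hc) hh

/-- **L1.** A power of `ℓ` times an inertia-equivariant function lies in `Hu`. -/
theorem ffd_L1 (hA : A.LiesOverPrime ℓ)
    (hHu : IsUnrHopfOrder A (fun (σ : GQ) (z : Z) => σ • z) Hu)
    (u : Z → Z → Qb) (hu : ∀ k, u k ∈ Hu) (hdet : (valMat u).det ≠ 0)
    (f : Z → Qb) (hf : ∀ σ ∈ A.inertiaSubgroupIn ℚ, ∀ z, f (σ • z) = σ (f z)) :
    ∃ M : ℕ, ∀ M' : ℕ, M ≤ M' → (fun z => (ℓ : Qb) ^ M' * f z) ∈ Hu := by
  have h1 : ∀ k, ∃ M : ℕ, (ℓ : Qb) ^ M * coefs u f k ∈ A := fun k => ffd_clear_denoms hA _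
  choose Mk hMk using h1
  refine ⟨∑ k, Mk k, fun M' hM' => ?_⟩
  have hfix : ∀ σ ∈ A.inertiaSubgroupIn ℚ, ∀ k, σ (coefs u f k) = coefs u f k := by
    intro σ hσ k
    exact coefs_fixed hdet σ (fun k z => hHu.inertia_equiv (u k) (hu k) σ hσ z) f _
      (coefs_spec hdet f) (hf σ hσ) k
  have hc : ∀ k, (ℓ : Qb) ^ M' * coefs u f k ∈ unrInt A := by
    intro k
    have hle : Mk k ≤ M' :=
      (Finset.single_le_sum (fun i _ => Nat.zero_le (Mk i)) (Finset.mem_univ k)).trans hM'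
    refine ⟨?_, fun σ hσ => ?_⟩
    · have : (ℓ : Qb) ^ M' * coefs u f k =
          (ℓ : Qb) ^ (M' - Mk k) * ((ℓ : Qb) ^ Mk k * coefs u f k) := by
        rw [← mul_assoc, ← pow_add, Nat.sub_add_cancel hle]
      rw [this]
      exact A.mul_mem _ _ (ffd_ell_pow_mem _) (hMk k)
    · rw [map_mul, map_pow, map_natCast, hfix σ hσ k]
  have h2 := ffd_comb_mem hHu Finset.univ u (fun k _ => hu k) _ (fun k _ => hc k)
  have h3 : (fun z => (ℓ : Qb) ^ M' * f z) =
      fun z => ∑ k, u k z * ((ℓ : Qb) ^ M' * coefs u f k) := by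
    funext z
    rw [coefs_spec hdet f z, Finset.mul_sum]
    exact Finset.sum_congr rfl fun k _ => by ring
  rw [h3]
  exact h2

/-- There is a family in `H₀` with invertible value matrix. -/
theorem ffd_exists_good (hA : A.LiesOverPrime ℓ)
    (hHu : IsUnrHopfOrder A (fun (σ : GQ) (z : Z) => σ • z) Hu)
    (hSep : EqvSeparatesStatement) (hSW : SepDetStatement)
    (hsm : IsSmoothOn (Set.univ : Set Z)) :
    ∃ e : Z → Z → Qb, (∀ k, InH0 Hu (e k)) ∧ (valMat e).det ≠ 0 := by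
  obtain ⟨f, hf, hfdet⟩ := hSW Qb Z (eqvSubring Z) (fun z z' hzz' => by
    obtain ⟨g, hg, hgz⟩ := hSep Z hsm z z' hzz'
    exact ⟨g, hg, hgz⟩)
  obtain ⟨u, hu, hudet⟩ := hSW Qb Z Hu hHu.separates
  have h1 : ∀ k, ∃ M : ℕ, ∀ M' : ℕ, M ≤ M' → (fun z => (ℓ : Qb) ^ M' * f k z) ∈ Hu :=
    fun k => ffd_L1 hA hHu u hu hudet (f k) (fun σ _ z => hf k σ z)
  choose Mk hMk using h1
  set M := ∑ k, Mk k with hM
  refine ⟨fun k z => (ℓ : Qb) ^ M * f k z, fun k => ⟨?_, ?_⟩, ?_⟩
  · exact hMk k M (Finset.single_le_sum (fun i _ => Nat.zero_le (Mk i)) (Finset.mem_univ k))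
  · intro σ z
    show (ℓ : Qb) ^ M * f k (σ • z) = σ ((ℓ : Qb) ^ M * f k z)
    rw [hf k σ z, map_mul, map_pow, map_natCast]
  · have h2 : valMat (fun k z => (ℓ : Qb) ^ M * f k z) =
        ((ℓ : Qb) ^ M) • (Matrix.of fun z k => f k z) := by
      ext z k
      simp [valMat_apply]
    rw [h2, Matrix.det_smul]
    exact mul_ne_zero (pow_ne_zero _ (pow_ne_zero _ ffd_ell_ne_zero)) hfdet

/-- Replacing a member of a family by a function multiplies the determinant by the
coefficient. -/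
theorem ffd_det_update (e : Z → Z → Qb) (he : (valMat e).det ≠ 0) (h : Z → Qb) (k : Z) :
    (valMat (Function.update e k h)).det = (valMat e).det * coefs e h k := by
  have h1 : valMat (Function.update e k h) = (valMat e).updateCol k h := by
    ext z j
    rw [valMat_apply, Matrix.updateCol_apply]
    by_cases hj : j = k
    · subst hj
      simp
    · rw [Function.update_of_ne hj, if_neg hj, valMat_apply]
  rw [h1, ← Matrix.cramer_apply]
  have h2 : h = (valMat e).mulVec (coefs e h) := by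
    funext z
    rw [valMat_mulVec]
    exact coefs_spec he h z
  have h3 : (valMat e).cramer h = (valMat e).det • coefs e h := by
    conv_lhs => rw [h2]
    rw [Matrix.cramer_eq_adjugate_mulVec, Matrix.mulVec_mulVec, Matrix.adjugate_mul,
      Matrix.smul_mulVec, Matrix.one_mulVec]
  rw [h3]
  rfl

/-- **The optimal basis.** -/
theorem ffd_exists_optimal (hA : A.LiesOverPrime ℓ)
    (hHu : IsUnrHopfOrder A (fun (σ : GQ) (z : Z) => σ • z) Hu)
    (hgood : ∃ e : Z → Z → Qb, (∀ k, InH0 Hu (e k)) ∧ (valMat e).det ≠ 0) :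
    ∃ e : Z → Z → Qb, (∀ k, InH0 Hu (e k)) ∧ (valMat e).det ≠ 0 ∧
      ∀ h, InH0 Hu h → ∀ k, ∃ r : ℚ, r ∈ GaloisRep.ratLocalizedAt ℓ ∧
        coefs e h k = algebraMap ℚ Qb r := by
  classical
  have hex : ∃ n : ℕ, ∃ e : Z → Z → Qb, ((∀ k, InH0 Hu (e k)) ∧ (valMat e).det ≠ 0) ∧
      ¬ ∃ a ∈ A, (valMat e).det = (ℓ : Qb) ^ n * a := by
    obtain ⟨e, he⟩ := hgood
    obtain ⟨N, hN⟩ := ffd_exists_not_dvd hA _ he.2
    exact ⟨N, e, he, hN⟩
  obtain ⟨e, ⟨heH, hedet⟩, hnd⟩ := Nat.find_spec hex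
  have hmin := fun m (hm : m < Nat.find hex) => Nat.find_min hex hm
  refine ⟨e, heH, hedet, fun h hh k => ?_⟩
  have hfix : ∀ σ : GQ, σ (coefs e h k) = coefs e h k := fun σ =>
    coefs_fixed hedet σ (fun k z => (heH k).2 σ z) h _ (coefs_spec hedet h) (hh.2 σ) k
  obtain ⟨r, hr⟩ := ffd_rat_of_fixed _ hfix
  refine ⟨r, ?_, hr.symm⟩
  by_contra hrn
  obtain ⟨a, ha, hra⟩ := ffd_rat_inv hA r hrn
  have hr0 : algebraMap ℚ Qb r ≠ 0 := by
    intro h0
    apply hrn
    have : r = 0 := (map_eq_zero (algebraMap ℚ Qb)).1 h0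
    rw [this]
    exact Subring.zero_mem _
  -- the new family
  have hdet' := ffd_det_update e hedet h k
  rw [← hr] at hdet'
  have hgood' : (∀ j, InH0 Hu (Function.update e k h j)) ∧
      (valMat (Function.update e k h)).det ≠ 0 := by
    refine ⟨fun j => ?_, ?_⟩
    · by_cases hj : j = k
      · subst hj
        simpa using hh
      · rw [Function.update_of_ne hj]
        exact heH j
    · rw [hdet']
      exact mul_ne_zero hedet hr0
  -- the determinant of `e` lies in `A`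
  have hdetA : (valMat e).det ∈ A :=
    ffd_det_mem A.toSubring _ fun i j => hHu.integral _ (heH j).1 i
  have hn0 : Nat.find hex ≠ 0 := by
    intro h0
    rw [h0] at hnd
    exact hnd ⟨_, hdetA, by rw [pow_zero, one_mul]⟩
  obtain ⟨n, hn⟩ := Nat.exists_eq_succ_of_ne_zero hn0
  have h1 := hmin n (by rw [hn]; exact Nat.lt_succ_self n)
  have h2 : ∃ a' ∈ A, (valMat (Function.update e k h)).det = (ℓ : Qb) ^ n * a' := by
    by_contra hcon
    exact h1 ⟨_, hgood', hcon⟩
  obtain ⟨a', ha', hda'⟩ := h2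
  apply hnd
  refine ⟨a' * a, A.mul_mem _ _ ha' ha, ?_⟩
  have h3 : (valMat e).det = (valMat (Function.update e k h)).det * (algebraMap ℚ Qb r)⁻¹ := by
    rw [hdet', mul_assoc, mul_inv_cancel₀ hr0, mul_one]
  rw [h3, hda', hra, hn, pow_succ]
  ring

end Main

end Fermat.Agent.H68.FFD

end
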