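/-
helper68 (P-FF / FF-D, row 510): the descent of an unramified Hopf order to a concrete Hopf
order over `ℤ_(ℓ)`, conditional on the three leaves of `Fermat.Agent.H68.FFD.Interfaces`.
-/
import Fermat.Agent.H68.FFD.Basis

set_option autoImplicit false
set_option linter.unusedVariables false
set_option linter.unusedSectionVars false

noncomputable section

namespace Fermat.Agent.H68.FFD

open Fermat.Agent.H10.FF Fermat.Agent.H72.FF
open scoped Pointwise

section Main

variable {ℓ : ℕ} [hℓ : Fact ℓ.Prime] {A : ValuationSubring Qb}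
  {Z : Type} [AddCommGroup Z] [Fintype Z] [DecidableEq Z] [DistribMulAction GQ Z]
  {Hu : Subring (Z → Qb)}

/-- **Key lemma, equivariant case.** -/
theorem ffd_key_dec (hP : PlaceFacts ℓ A)
    (hHu : IsUnrHopfOrder A (fun (σ : GQ) (z : Z) => σ • z) Hu)
    (e : Z → Z → Qb) (heH : ∀ k, InH0 Hu (e k)) (hedet : (valMat e).det ≠ 0)
    (hopt : ∀ h, InH0 Hu h → ∀ k, ∃ r : ℚ, r ∈ GaloisRep.ratLocalizedAt ℓ ∧
        coefs e h k = algebraMap ℚ Qb r)
    (y : Z → Qb) (hy : y ∈ Hu)
    (hyD : ∀ σ ∈ A.decompositionSubgroup ℚ, ∀ z : Z, y (σ • z) = σ (y z)) (k : Z) :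
    coefs e y k ∈ A := by
  have hA := hP.liesOver
  have hfix : ∀ σ ∈ A.decompositionSubgroup ℚ, ∀ k, σ (coefs e y k) = coefs e y k :=
    fun σ hσ k => coefs_fixed hedet σ (fun k z => (heH k).2 σ z) y _ (coefs_spec hedet y)
      (hyD σ hσ) k
  have hd : ∀ k, ∃ q : ℚ, ∃ a ∈ A, coefs e y k - algebraMap ℚ Qb q = (ℓ : Qb) ^ 0 * a :=
    fun k => hP.dense _ (fun σ hσ => hfix σ hσ k) 0
  choose q a ha hqa using hd
  have hqa' : ∀ k, coefs e y k = algebraMap ℚ Qb (q k) + a k := by
    intro k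
    have := hqa k
    rw [pow_zero, one_mul] at this
    rw [← this]
    ring
  have haR : ∀ k, a k ∈ unrInt A := by
    intro k
    refine ⟨ha k, fun σ hσ => ?_⟩
    have h1 : a k = coefs e y k - algebraMap ℚ Qb (q k) := by rw [hqa' k]; ring
    rw [h1, map_sub, hfix σ (ffd_inertia_le hσ) k, σ.commutes]
  -- the rational part
  have hy'Hu : (fun z => ∑ k, e k z * algebraMap ℚ Qb (q k)) ∈ Hu := by
    have h1 : (fun z => ∑ k, e k z * algebraMap ℚ Qb (q k)) =
        y - fun z => ∑ k ∈ Finset.univ, e k z * a k := by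
      funext z
      rw [Pi.sub_apply, coefs_spec hedet y z, ← Finset.sum_sub_distrib]
      refine Finset.sum_congr rfl fun k _ => ?_
      rw [hqa' k]
      ring
    rw [h1]
    exact Hu.sub_mem hy (ffd_comb_mem hHu Finset.univ e (fun k _ => (heH k).1) a
      (fun k _ => haR k))
  have hy'eq : ∀ (σ : GQ) (z : Z), (fun z => ∑ k, e k z * algebraMap ℚ Qb (q k)) (σ • z) =
      σ ((fun z => ∑ k, e k z * algebraMap ℚ Qb (q k)) z) := by
    intro σ z
    simp only [map_sum, map_mul]
    refine Finset.sum_congr rfl fun k _ => ?_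
    rw [(heH k).2 σ z, σ.commutes]
  have hcu := coefs_unique hedet (fun z => ∑ k, e k z * algebraMap ℚ Qb (q k))
    (fun k => algebraMap ℚ Qb (q k)) (fun z => rfl)
  obtain ⟨r, hr, hrq⟩ := hopt _ ⟨hy'Hu, hy'eq⟩ k
  rw [hcu] at hrq
  have hrq' : algebraMap ℚ Qb (q k) = algebraMap ℚ Qb r := hrq
  rw [hqa' k, hrq']
  exact A.add_mem _ _ (ffd_zl_mem hA r hr) (ha k)

/-- **Key lemma.** The coefficients of the elements of `Hu` with respect to the optimal basis
lie in `A`. -/
theorem ffd_key (hP : PlaceFacts ℓ A)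
    (hHu : IsUnrHopfOrder A (fun (σ : GQ) (z : Z) => σ • z) Hu)
    (hTr : ∀ x ∈ Hu, ∃ (m : ℕ) (c : Fin m → Qb) (y : Fin m → Z → Qb),
        (∀ j, c j ∈ A) ∧ (∀ j, y j ∈ Hu) ∧
        (∀ j, ∀ σ ∈ A.decompositionSubgroup ℚ, ∀ z : Z, y j (σ • z) = σ (y j z)) ∧
        ∀ z : Z, x z = ∑ j, c j * y j z)
    (e : Z → Z → Qb) (heH : ∀ k, InH0 Hu (e k)) (hedet : (valMat e).det ≠ 0)
    (hopt : ∀ h, InH0 Hu h → ∀ k, ∃ r : ℚ, r ∈ GaloisRep.ratLocalizedAt ℓ ∧
        coefs e h k = algebraMap ℚ Qb r)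
    (x : Z → Qb) (hx : x ∈ Hu) (k : Z) : coefs e x k ∈ A := by
  obtain ⟨m, c, y, hc, hy, hyD, hxy⟩ := hTr x hx
  have h1 : x = ∑ j, c j • y j := by
    funext z
    rw [hxy z, Finset.sum_apply]
    rfl
  rw [h1, coefs_sum, Finset.sum_apply]
  refine sum_mem fun j _ => ?_
  rw [coefs_smul, Pi.smul_apply, smul_eq_mul]
  exact A.mul_mem _ _ (hc j)
    (ffd_key_dec hP hHu e heH hedet hopt (y j) (hy j) (hyD j) k)

/-- Multiplication by `n` preserves `Hu`. -/
theorem ffd_nsmul_mem (hHu : IsUnrHopfOrder A (fun (σ : GQ) (z : Z) => σ • z) Hu) (n : ℕ) :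
    ∀ h ∈ Hu, (fun z : Z => h (n • z)) ∈ Hu := by
  induction n with
  | zero =>
    intro h hh
    have h1 : (fun z : Z => h (0 • z)) = fun _ => h 0 := by
      funext z
      rw [zero_smul]
    rw [h1]
    refine hHu.const_mem _ ⟨hHu.integral h hh 0, fun σ hσ => ?_⟩
    have := hHu.inertia_equiv h hh σ hσ 0
    simp only [smul_zero] at this
    exact this.symm
  | succ n ih =>
    intro h hh
    obtain ⟨m, a, b, ha, hb, hab⟩ := hHu.comul_mem h hh
    have h1 : (fun z : Z => h ((n + 1) • z)) = ∑ i, a i * fun z => b i (n • z) := by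
      funext z
      rw [succ_nsmul', hab, Finset.sum_apply]
      rfl
    rw [h1]
    exact Subring.sum_mem _ fun i _ => Hu.mul_mem (ha i) (ih (b i) (hb i))

/-- The antipode preserves `Hu`. -/
theorem ffd_neg_mem (hHu : IsUnrHopfOrder A (fun (σ : GQ) (z : Z) => σ • z) Hu)
    (h : Z → Qb) (hh : h ∈ Hu) : (fun z : Z => h (-z)) ∈ Hu := by
  have h1 : (fun z : Z => h (-z)) = fun z => h ((Nat.card Z - 1) • z) := by
    funext z
    congr 1
    have hpos : 0 < Nat.card Z := Nat.card_pos
    have h2 : (Nat.card Z - 1) • z + z = 0 := by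
      rw [← succ_nsmul, Nat.sub_add_cancel hpos]
      exact card_nsmul_eq_zero'
    exact (eq_neg_of_add_eq_zero_left h2).symm
  rw [h1]
  exact ffd_nsmul_mem hHu _ h hh

end Main

/-- **FF-D**, conditional on the three leaves. -/
theorem descent_of (hSep : EqvSeparatesStatement) (hSW : SepDetStatement)
    (hTr : TraceTrickStatement) : DescentStatement := by
  intro ℓ hℓ A hP Z _ _ _ hsm Hu hHu
  classical
  haveI : Fintype Z := Fintype.ofFinite Z
  have hA := hP.liesOver
  obtain ⟨e, heH, hedet, hopt⟩ :=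
    ffd_exists_optimal hA hHu (ffd_exists_good hA hHu hSep hSW hsm)
  have hkey := ffd_key hP hHu (hTr A hP.unrBasis Z hsm Hu hHu) e heH hedet hopt
  -- every element of `H₀` is a `ℤ_(ℓ)`-combination of the `e k`
  have hcomb : ∀ (c : Z → Qb), (∀ k, ∃ r : ℚ, r ∈ GaloisRep.ratLocalizedAt ℓ ∧
      c k = algebraMap ℚ Qb r) → InH0 Hu (fun z => ∑ k, e k z * c k) := by
    intro c hc
    refine ⟨ffd_comb_mem hHu Finset.univ e (fun k _ => (heH k).1) c (fun k _ => ?_), ?_⟩
    · obtain ⟨r, hr, hcr⟩ := hc k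
      rw [hcr]
      exact ffd_rat_unrInt hA r hr
    · intro σ z
      simp only [map_sum, map_mul]
      refine Finset.sum_congr rfl fun k _ => ?_
      obtain ⟨r, hr, hcr⟩ := hc k
      rw [(heH k).2 σ z, hcr, σ.commutes]
  let H₀ : Subalgebra (Zl ℓ) (Z → Qb) :=
    { carrier := {h | InH0 Hu h}
      mul_mem' := by
        rintro a b ⟨ha, ha'⟩ ⟨hb, hb'⟩
        refine ⟨Hu.mul_mem ha hb, fun σ z => ?_⟩
        simp only [Pi.mul_apply, map_mul]
        rw [ha', hb']
      add_mem' := by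
        rintro a b ⟨ha, ha'⟩ ⟨hb, hb'⟩
        refine ⟨Hu.add_mem ha hb, fun σ z => ?_⟩
        simp only [Pi.add_apply, map_add]
        rw [ha', hb']
      algebraMap_mem' := by
        intro r
        refine ⟨hHu.const_mem _ (ffd_rat_unrInt hA (r : ℚ) r.2), fun σ z => ?_⟩
        exact (σ.commutes (r : ℚ)).symm }
  have hmem : ∀ h, h ∈ H₀ ↔ InH0 Hu h := fun h => Iff.rfl
  refine ⟨H₀, ?_, ?_, ?_, ?_, ?_⟩
  · -- equivariant
    intro h hh σ z
    exact ((hmem h).1 hh).2 σ z
  · -- finite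
    have hspan : Subalgebra.toSubmodule H₀ = Submodule.span (Zl ℓ) (Set.range e) := by
      apply le_antisymm
      · intro h hh
        have hh' : InH0 Hu h := hh
        choose r hr hcr using hopt h hh'
        have h1 : h = ∑ k, (⟨r k, hr k⟩ : Zl ℓ) • e k := by
          funext z
          rw [coefs_spec hedet h z, Finset.sum_apply]
          refine Finset.sum_congr rfl fun k _ => ?_
          rw [hcr k, Pi.smul_apply, Algebra.smul_def, mul_comm]
          rfl
        rw [h1]
        exact Submodule.sum_mem _ fun k _ =>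
          Submodule.smul_mem _ _ (Submodule.subset_span ⟨k, rfl⟩)
      · rw [Submodule.span_le]
        rintro _ ⟨k, rfl⟩
        exact heH k
    rw [hspan]
    exact Submodule.fg_span (Set.finite_range e)
  · -- separates
    intro z z' hzz'
    obtain ⟨h, hh, hhz⟩ := hHu.separates z z' hzz'
    by_contra hcon
    push_neg at hcon
    apply hhz
    rw [coefs_spec hedet h z, coefs_spec hedet h z']
    refine Finset.sum_congr rfl fun k _ => ?_
    rw [hcon (e k) (heH k)]
  · -- comultiplication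
    intro h hh
    have hh' : InH0 Hu h := hh
    obtain ⟨m, a, b, ha, hb, hab⟩ := hHu.comul_mem h hh'.1
    -- the coefficient matrix
    set C : Z → Z → Qb := fun k l => ∑ i, coefs e (a i) k * coefs e (b i) l with hC
    have hCA : ∀ k l, C k l ∈ A := fun k l =>
      sum_mem fun i _ => A.mul_mem _ _ (hkey (a i) (ha i) k) (hkey (b i) (hb i) l)
    set b' : Z → Z → Qb := fun k z' => ∑ l, e l z' * C k l with hb'
    have hexp : ∀ z z' : Z, h (z + z') = ∑ k, e k z * b' k z' := by
      intro z z'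
      rw [hab]
      have h1 : ∀ i, a i z * b i z' =
          ∑ k, ∑ l, e k z * (e l z' * (coefs e (a i) k * coefs e (b i) l)) := by
        intro i
        rw [coefs_spec hedet (a i) z, coefs_spec hedet (b i) z', Finset.sum_mul_sum]
        refine Finset.sum_congr rfl fun k _ => Finset.sum_congr rfl fun l _ => ?_
        ring
      simp only [h1, hb', hC]
      rw [Finset.sum_comm]
      refine Finset.sum_congr rfl fun k _ => ?_
      rw [Finset.mul_sum, Finset.sum_comm]
      refine Finset.sum_congr rfl fun l _ => ?_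
      rw [Finset.mul_sum, Finset.mul_sum]
    -- `b' k` is equivariant
    have hb'eq : ∀ (k : Z) (σ : GQ) (z' : Z), b' k (σ • z') = σ (b' k z') := by
      intro k σ z'
      have h1 : ∀ z, ∑ k, σ (e k z) * (b' k (σ • z') - σ (b' k z')) = 0 := by
        intro z
        have h2 : h (σ • z + σ • z') = ∑ k, σ (e k z) * b' k (σ • z') := by
          rw [hexp]
          exact Finset.sum_congr rfl fun k _ => by rw [(heH k).2 σ z]
        have h3 : σ (h (z + z')) = ∑ k, σ (e k z) * σ (b' k z') := by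
          rw [hexp, map_sum]
          exact Finset.sum_congr rfl fun k _ => by rw [map_mul]
        have h4 : ∑ k, σ (e k z) * (b' k (σ • z') - σ (b' k z')) =
            ∑ k, σ (e k z) * b' k (σ • z') - ∑ k, σ (e k z) * σ (b' k z') := by
          rw [← Finset.sum_sub_distrib]
          exact Finset.sum_congr rfl fun k _ => by ring
        rw [h4, ← h2, ← h3, ← smul_add, hh'.2, sub_self]
      have h5 := congrFun (ffd_eq_zero_of_sum hedet σ _ h1) k
      simp only [Pi.zero_apply] at h5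
      exact sub_eq_zero.1 h5
    -- the coefficients are rational, hence in `ℤ_(ℓ)`
    have hCr : ∀ k l, ∃ r : ℚ, r ∈ GaloisRep.ratLocalizedAt ℓ ∧ C k l = algebraMap ℚ Qb r := by
      intro k l
      have hfix : ∀ σ : GQ, σ (C k l) = C k l := fun σ =>
        coefs_fixed hedet σ (fun k z => (heH k).2 σ z) (b' k) (C k) (fun z => rfl)
          (hb'eq k σ) l
      obtain ⟨r, hr⟩ := ffd_rat_of_fixed _ hfix
      refine ⟨r, ?_, hr.symm⟩
      rw [← ffd_rat_mem_iff hA, hr]
      exact hCA k l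
    have hb'H : ∀ k, InH0 Hu (b' k) := fun k => hcomb (C k) (hCr k)
    -- reindex by `Fin n`
    let φ := Fintype.equivFin Z
    refine ⟨Fintype.card Z, fun i => e (φ.symm i), fun i => b' (φ.symm i),
      fun i => heH _, fun i => hb'H _, fun z z' => ?_⟩
    rw [hexp]
    exact (Equiv.sum_comp φ.symm (fun k => e k z * b' k z')).symm
  · -- antipode
    intro h hh
    have hh' : InH0 Hu h := hh
    refine ⟨ffd_neg_mem hHu h hh'.1, fun σ z => ?_⟩
    show h (-(σ • z)) = σ (h (-z))
    rw [← smul_neg, hh'.2]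

end Fermat.Agent.H68.FFD

end
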