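/-
helper68 (P-FF / FF-D, row 510): the descent statement, unconditional.

Leaves: `Fermat.Agent.H73.FFDSep.eqvSeparates` (helper73), `Fermat.Agent.H47.FF.sepDet`
(helper47), `Fermat.Agent.H16.traceTrickStatement` (helper16).
-/
import Fermat.Agent.H68.FFD.Descent
import Fermat.Agent.H73.FFDSep
import Fermat.Agent.H47.FF.SepDet
import Fermat.Agent.H16.FFDTrace

set_option autoImplicit false

namespace Fermat.Agent.H68.FFD

/-- **FF-D (descent).**  An unramified Hopf order descends to a concrete Hopf order over
`ℤ_(ℓ)`. -/
theorem descent : Fermat.Agent.H72.FF.DescentStatement :=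
  descent_of Fermat.Agent.H73.FFDSep.eqvSeparates Fermat.Agent.H47.FF.sepDet
    Fermat.Agent.H16.traceTrickStatement

end Fermat.Agent.H68.FFD
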